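import Fermat.Statements.S54

set_option autoImplicit false
open GaloisRep GaloisRep.DeformationRingData

namespace Fermat.Agent.S54.helper474

open Polynomial

/-- Existence of Frobenius elements in `Gal(ℚ̄/ℚ)` at every prime, in the prelude's sense. -/
def FrobExists : Prop :=
  ∀ ℓ : ℕ, ℓ.Prime → ∃ A : ValuationSubring (AlgebraicClosure ℚ), A.LiesOverPrime ℓ ∧
    ∃ σ : AlgebraicClosure ℚ ≃ₐ[ℚ] AlgebraicClosure ℚ, A.IsFrobeniusAt σ ℓ

/-- If two adic Galois representations are equivalent, the characteristic polynomials agree. -/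
theorem charpoly_eq_of_equiv {A : Type} [CommRing A] [IsLocalRing A] {ρ₁ ρ₂ : GaloisRepAdic A}
    (e : GaloisRepAdic.Equiv ρ₁ ρ₂) (σ : AlgebraicClosure ℚ ≃ₐ[ℚ] AlgebraicClosure ℚ) :
    LinearMap.charpoly (ρ₂.ρ σ) = LinearMap.charpoly (ρ₁.ρ σ) := by
  have h : ρ₂.ρ σ = e.toLinearEquiv.conj (ρ₁.ρ σ) := by
    refine LinearMap.ext fun x => ?_
    rw [LinearEquiv.conj_apply_apply, e.map_apply, LinearEquiv.apply_symm_apply]
  rw [h, LinearEquiv.charpoly_conj]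

/-- Characteristic polynomial of a base change of an adic Galois representation. -/
theorem charpoly_baseChangeAlong {A B : Type} [CommRing A] [IsLocalRing A] [CommRing B]
    [IsLocalRing B] (φ : A →+* B) (hφ : IsLocalHom φ) (ρ : GaloisRepAdic A)
    (σ : AlgebraicClosure ℚ ≃ₐ[ℚ] AlgebraicClosure ℚ) :
    LinearMap.charpoly ((ρ.baseChangeAlong φ hφ).ρ σ) = (LinearMap.charpoly (ρ.ρ σ)).map φ := by
  let _ : Algebra A B := φ.toAlgebra
  exact LinearMap.charpoly_baseChange (A := B) (ρ.ρ σ)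

theorem core (hF : FrobExists) {𝒪 : Type} [CommRing 𝒪] [IsDomain 𝒪] [IsDiscreteValuationRing 𝒪] [IsAdicComplete (IsLocalRing.maximalIdeal 𝒪) 𝒪] {ρbar : ResidualGaloisRep (IsLocalRing.ResidueField 𝒪)} {𝒟 : ∀ ⦃A : Type⦄ [CommRing A] [IsLocalRing A] [Algebra 𝒪 A], GaloisRepAdic A → Prop} (D : GaloisRep.DeformationRingData 𝒪 ρbar 𝒟) {N : ℕ} [NeZero N] {S : Set ℕ} {θ : CuspForm.heckeAlgebra N 2 S →+* IsLocalRing.ResidueField 𝒪} {T : Type} [CommRing T] [IsLocalRing T] [IsNoetherianRing T] [IsAdicComplete (IsLocalRing.maximalIdeal T) T] [Algebra 𝒪 T] [IsLocalHom (algebraMap 𝒪 T)] [Module.Finite 𝒪 T] [Module.Free 𝒪 T] (H : CuspForm.HeckeGaloisRepDatum N S 𝒪 θ T) (hS : ∀ q : ℕ, q.Prime → q ∣ N → q ∈ S) (h𝒟 : 𝒟 H.ρ) (hres : H.ρ.residual.IsEquiv (ρbar.baseChangeAlong (IsLocalRing.ResidueField.map (algebraMap 𝒪 T)))) : ∃ φ : D.R →ₐ[𝒪] T, Function.Surjective φ ∧ ∃ hφ : IsLocalHom (φ : D.R →+* T),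 (D.ρ.baseChangeAlong (φ : D.R →+* T) hφ).IsEquiv H.ρ := by
  obtain ⟨φ, ⟨hφ, ⟨e⟩⟩, -⟩ := D.universal T H.residue_surjective H.ρ h𝒟 hres
  refine ⟨φ, ?_, hφ, ⟨e⟩⟩
  -- the Hecke operators `T_ℓ` land in the range of `φ`
  have hT : ∀ (ℓ : ℕ) (hℓ : ℓ.Prime) (hℓN : ¬ ℓ ∣ N) (hℓS : ℓ ∉ S),
      H.π (CuspForm.heckeAlgebra.T hℓ hℓN hℓS) ∈ φ.range := by
    intro ℓ hℓ hℓN hℓS
    obtain ⟨A, hA, σ, hσ⟩ := hF ℓ hℓ
    have hc := H.charpoly_frob ℓ hℓ hℓN hℓS A hA σ hσ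
    rw [charpoly_eq_of_equiv e σ, charpoly_baseChangeAlong] at hc
    have h1 := congrArg (fun p : T[X] => p.coeff 1) hc
    simp only [coeff_map, coeff_add, coeff_sub, coeff_X_pow, coeff_C_mul, coeff_X, coeff_C] at h1
    norm_num at h1
    refine ⟨-(LinearMap.charpoly (D.ρ.ρ σ)).coeff 1, ?_⟩
    show φ (-(LinearMap.charpoly (D.ρ.ρ σ)).coeff 1) = _
    rw [map_neg, h1, neg_neg]
  -- hence all of the Hecke algebra lands in the range
  have hπ : ∀ (x : Module.End ℂ (CuspForm (CongruenceSubgroup.Gamma0 N) 2))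
      (hx : x ∈ CuspForm.heckeAlgebra N 2 S), H.π ⟨x, hx⟩ ∈ φ.range := by
    intro x hx
    refine Algebra.adjoin_induction
      (p := fun x hx => H.π ⟨x, hx⟩ ∈ φ.range) ?_ ?_ ?_ ?_ hx
    · rintro x (⟨ℓ, hℓ, hℓN, hℓS, rfl⟩ | ⟨q, hqN, hq, hqS, rfl⟩)
      · exact hT ℓ hℓ hℓN hℓS
      · exact absurd (hS q hq hqN) hqS
    · intro r
      have : (⟨algebraMap ℤ _ r, Subalgebra.algebraMap_mem _ r⟩ : CuspForm.heckeAlgebra N 2 S) =
          ((r : ℤ) : CuspForm.heckeAlgebra N 2 S) := by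
        apply Subtype.ext
        simp
      rw [this, map_intCast]
      exact intCast_mem _ r
    · intro x y hx hy hpx hpy
      have : (⟨x + y, add_mem hx hy⟩ : CuspForm.heckeAlgebra N 2 S) = ⟨x, hx⟩ + ⟨y, hy⟩ := rfl
      rw [this, map_add]
      exact add_mem hpx hpy
    · intro x y hx hy hpx hpy
      have : (⟨x * y, mul_mem hx hy⟩ : CuspForm.heckeAlgebra N 2 S) = ⟨x, hx⟩ * ⟨y, hy⟩ := rfl
      rw [this, map_mul]
      exact mul_mem hpx hpy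
  have hrange : φ.range = ⊤ := by
    apply top_unique
    rw [← H.adjoin_range_π]
    refine Algebra.adjoin_le ?_
    rintro _ ⟨t, rfl⟩
    exact hπ t.1 t.2
  intro y
  have hy : y ∈ φ.range := hrange ▸ Algebra.mem_top
  exact hy

end Fermat.Agent.S54.helper474
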